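/-
S18 / wave 4 (helper78): core 2, leaf K2-N, piece N-INV.

The descended setup `DSetup A₀ O₀ x` of `H19/Core2Defs.lean` is symmetric under `x ↦ x⁻¹`, except
for its `branch` field: `dsetup_inv` produces `DSetup A₀ O₀ x⁻¹` from `DSetup A₀ O₀ x` and the
branch clause for `x⁻¹`.  (So the number-field descent only has to descend ONE setup and a second
branch clause.)
-/
import Mathlib
import Fermat.Agent.S18.H19.Core2Defs

set_option autoImplicit false

open Polynomial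

namespace Fermat.Agent.S18.H78

open Fermat.Agent.S18.H19

variable {A₀ : Type*} [CommRing A₀] {F₀ : Type*} [Field F₀] [Algebra A₀ F₀]

/-- `K₀(x⁻¹) = K₀(x)`. -/
theorem ratSub_inv_eq (x : F₀) : ratSub A₀ x⁻¹ = ratSub A₀ x := by
  unfold ratSub
  apply le_antisymm
  · rw [Subfield.closure_le]
    rintro y (hy | hy)
    · exact Subfield.subset_closure (Or.inl hy)
    · rw [Set.mem_singleton_iff] at hy
      rw [hy]
      exact inv_mem (Subfield.subset_closure (Or.inr rfl))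
  · rw [Subfield.closure_le]
    rintro y (hy | hy)
    · exact Subfield.subset_closure (Or.inl hy)
    · rw [Set.mem_singleton_iff] at hy
      rw [hy]
      have h : (x⁻¹)⁻¹ ∈ Subfield.closure (Set.range (algebraMap A₀ F₀) ∪ {x⁻¹}) :=
        inv_mem (Subfield.subset_closure (Or.inr rfl))
      rwa [inv_inv] at h

/-- `p(x⁻¹) = p.reverse(x) * (x⁻¹) ^ deg p`. -/
theorem aeval_inv_eq_reverse_mul (x : F₀) (hx : x ≠ 0) (p : A₀[X]) :
    aeval x⁻¹ p = aeval x p.reverse * x⁻¹ ^ p.natDegree := by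
  let _ : Invertible (x⁻¹ : F₀) := ⟨x, mul_inv_cancel₀ hx, inv_mul_cancel₀ hx⟩
  have h := Polynomial.eval₂_reverse_mul_pow (algebraMap A₀ F₀) (x⁻¹ : F₀) p
  have h2 : (⅟(x⁻¹ : F₀)) = x := rfl
  rw [h2] at h
  rw [Polynomial.aeval_def, Polynomial.aeval_def, h]

/-- `x⁻¹` is transcendental if `x` is. -/
theorem transcendental_inv [Nontrivial A₀] (x : F₀) (hx : Transcendental A₀ x) : Transcendental A₀ x⁻¹ := by
  have hx0 : x ≠ 0 := fun h => hx (by rw [h]; exact isAlgebraic_zero)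
  rintro ⟨p, hp0, hp⟩
  apply hx
  refine ⟨p.reverse, fun h => hp0 (Polynomial.reverse_eq_zero.mp h), ?_⟩
  rw [aeval_inv_eq_reverse_mul x hx0 p] at hp
  rcases mul_eq_zero.mp hp with h | h
  · exact h
  · exact absurd h (pow_ne_zero _ (inv_ne_zero hx0))

/-- The Gauss condition passes from `x` to `x⁻¹`. -/
theorem gauss_inv' (O₀ : ValuationSubring F₀) (x : F₀) [Nontrivial A₀]
    (hg : ∀ P : A₀[X], (∃ i, IsUnit (P.coeff i)) → aeval x P ∈ O₀ ∧ (aeval x P)⁻¹ ∈ O₀) :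
    ∀ P : A₀[X], (∃ i, IsUnit (P.coeff i)) → aeval x⁻¹ P ∈ O₀ ∧ (aeval x⁻¹ P)⁻¹ ∈ O₀ := by
  have hxX := hg Polynomial.X ⟨1, by simp⟩
  rw [Polynomial.aeval_X] at hxX
  obtain ⟨hxO, hxiO⟩ := hxX
  intro p hu
  by_cases hx : x = 0
  · have : x⁻¹ = x := by rw [hx, inv_zero]
    rw [this]
    exact hg p hu
  have hrev := hg p.reverse (by
    obtain ⟨i, hi⟩ := hu
    refine ⟨Polynomial.revAt p.natDegree i, ?_⟩
    rw [Polynomial.coeff_reverse, Polynomial.revAt_invol]; exact hi)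
  rw [aeval_inv_eq_reverse_mul x hx p]
  refine ⟨mul_mem hrev.1 (pow_mem hxiO _), ?_⟩
  rw [mul_inv, ← inv_pow, inv_inv]
  exact mul_mem hrev.2 (pow_mem hxO _)

/-- **N-INV**: the descended setup for `x⁻¹` from the one for `x` and the branch clause for
`x⁻¹`. -/
theorem dsetup_inv [Nontrivial A₀] (O₀ : ValuationSubring F₀) (x : F₀) (hS : DSetup A₀ O₀ x)
    (hbr : ∃ S : Finset A₀, (∀ a ∈ S, ∀ b ∈ S, a ≠ b → IsUnit (a - b)) ∧
      ∀ V : ValuationSubring F₀, (∀ a : A₀, a ≠ 0 → (algebraMap A₀ F₀ a)⁻¹ ∈ V) →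
        IsDiscreteValuationRing V → x⁻¹ ∈ V → (∀ a ∈ S, (x⁻¹ - algebraMap A₀ F₀ a)⁻¹ ∈ V) →
        ∃ g : A₀[X], aeval x⁻¹ g ∈ V ∧ (aeval x⁻¹ g)⁻¹ ∉ V ∧
          ∀ t ∈ V, t⁻¹ ∉ V → t / aeval x⁻¹ g ∈ V) :
    DSetup A₀ O₀ x⁻¹ where
  mem_iff := hS.mem_iff
  gauss := gauss_inv' O₀ x hS.gauss
  scale := hS.scale
  transc := transcendental_inv x hS.transc
  finite := by
    rw [ratSub_inv_eq]
    exact hS.finite
  basis := by
    rw [ratSub_inv_eq]
    exact hS.basis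
  branch := hbr
  const := hS.const
  const₀ := hS.const₀

end Fermat.Agent.S18.H78
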