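import Mathlib

/-!
# S18 / T-CONST support (helper78): valuation subrings of one-variable function fields are DVRs

`isPrincipalIdealRing_of_finiteDimensional`: let `F / k` be a field extension and `t : F` such
that `F` is finite over `k(t)`.  Then every valuation subring `V ≠ ⊤` of `F` containing `k` is a
principal ideal ring (a discrete valuation ring).  No separability, any characteristic.

Proof.  The values of `k(t)ˣ` form a cyclic group `γ^ℤ` with `γ = v π < 1` (`exists_uniformizer`).
Elements of `F` whose values lie in pairwise different cosets of `γ^ℤ` are linearly independent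
over `k(t)` (`exists_same_coset`), so for every `x ≠ 0` some power `v x ^ m`, `1 ≤ m ≤ [F : k(t)]`,
lies in `γ^ℤ` (`exists_pow_eq`).  Hence `v x ^ n! = γ ^ A x` for an integer `A x`, and an ideal is
generated by any of its elements with minimal `A`.
-/

set_option autoImplicit false

open Polynomial IntermediateField

namespace Fermat.Agent.S18.H78

variable {k F : Type*} [Field k] [Field F] [Algebra k F]

/-- Elements whose values lie in pairwise different cosets of the value group of a subfield `E`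
are linearly independent over `E`; so among more than `[F : E]` nonzero elements two lie in the
same coset. -/
theorem exists_same_coset (E : IntermediateField k F) [FiniteDimensional E F]
    {Γ : Type*} [LinearOrderedCommGroupWithZero Γ] (v : Valuation F Γ) (γ : Γ)
    (hE : ∀ c ∈ E, c ≠ 0 → ∃ z : ℤ, v c = γ ^ z) (hγ : γ ≠ 0)
    (x : Fin (Module.finrank E F + 1) → F) (hx : ∀ i, x i ≠ 0) :
    ∃ i j, i ≠ j ∧ ∃ z : ℤ, v (x i) = v (x j) * γ ^ z := by
  classical
  by_contra hcon
  push Not at hcon
  have hli : LinearIndependent E x := by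
    rw [Fintype.linearIndependent_iff]
    intro g hg
    by_contra hne
    push Not at hne
    obtain ⟨i1, hi1⟩ := hne
    -- pick the index of maximal value among the nonzero terms
    have hsne : (Finset.univ.filter fun i => g i ≠ 0).Nonempty := ⟨i1, by simp [hi1]⟩
    obtain ⟨i0, hi0, hmax⟩ := Finset.exists_max_image _ (fun i => v ((g i : F) * x i)) hsne
    have hgi0 : g i0 ≠ 0 := (Finset.mem_filter.mp hi0).2
    have hv0 : v ((g i0 : F) * x i0) ≠ 0 := by
      rw [Valuation.ne_zero_iff]
      exact mul_ne_zero (by exact_mod_cast hgi0) (hx i0)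
    have hlt : ∀ i ∈ Finset.univ.erase i0, v ((g i : F) * x i) < v ((g i0 : F) * x i0) := by
      intro i hi
      have hii0 : i ≠ i0 := (Finset.mem_erase.mp hi).1
      by_cases hgi : g i = 0
      · rw [hgi]
        simpa using zero_lt_iff.mpr hv0
      · have hle := hmax i (by simp [hgi])
        refine lt_of_le_of_ne hle fun heq => ?_
        obtain ⟨z, hz⟩ := hE (g i) (g i).2 (by exact_mod_cast hgi)
        obtain ⟨z0, hz0⟩ := hE (g i0) (g i0).2 (by exact_mod_cast hgi0)
        rw [map_mul, map_mul, hz, hz0] at heq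
        refine hcon i i0 hii0 (z0 - z) ?_
        have hγz : γ ^ z ≠ 0 := zpow_ne_zero z hγ
        rw [zpow_sub₀ hγ, mul_div_assoc', eq_div_iff hγz, mul_comm (v (x i)), heq, mul_comm]
    have hsum : ∑ i, g i • x i = (g i0 : F) * x i0 + ∑ i ∈ Finset.univ.erase i0, (g i : F) * x i := by
      rw [← Finset.add_sum_erase _ _ (Finset.mem_univ i0)]
      rfl
    have h1 : v (∑ i ∈ Finset.univ.erase i0, (g i : F) * x i) < v ((g i0 : F) * x i0) :=
      Valuation.map_sum_lt v hv0 hlt
    have h2 := Valuation.map_add_eq_of_lt_left v h1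
    rw [← hsum, hg, map_zero] at h2
    exact hv0 h2.symm
  have := hli.fintype_card_le_finrank
  simp at this

/-- For every `x ≠ 0` some power `v x ^ m` with `1 ≤ m ≤ [F : E]` lies in `γ^ℤ`. -/
theorem exists_pow_eq (E : IntermediateField k F) [FiniteDimensional E F]
    {Γ : Type*} [LinearOrderedCommGroupWithZero Γ] (v : Valuation F Γ) (γ : Γ)
    (hE : ∀ c ∈ E, c ≠ 0 → ∃ z : ℤ, v c = γ ^ z) (hγ : γ ≠ 0) (x : F) (hx : x ≠ 0) :
    ∃ m : ℕ, 1 ≤ m ∧ m ≤ Module.finrank E F ∧ ∃ a : ℤ, v x ^ m = γ ^ a := by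
  obtain ⟨i, j, hij, z, hz⟩ := exists_same_coset E v γ hE hγ (fun i => x ^ (i : ℕ))
    (fun i => pow_ne_zero _ hx)
  have hvx : v x ≠ 0 := (Valuation.ne_zero_iff v).mpr hx
  rw [map_pow, map_pow] at hz
  have hij' : (i : ℕ) ≠ (j : ℕ) := fun h => hij (Fin.ext h)
  rcases lt_or_gt_of_ne hij' with hlt | hgt
  · -- i < j
    refine ⟨(j : ℕ) - i, by omega, by omega, -z, ?_⟩
    have hj : (j : ℕ) = i + (j - i) := by omega
    rw [hj, pow_add, mul_assoc] at hz
    have h1 : v x ^ ((j : ℕ) - (i : ℕ)) * γ ^ z = 1 := by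
      have := mul_left_cancel₀ (pow_ne_zero (i : ℕ) hvx) (a := v x ^ (i : ℕ)) (b := 1)
        (c := v x ^ ((j : ℕ) - (i : ℕ)) * γ ^ z) (by rw [mul_one]; exact hz)
      exact this.symm
    rw [zpow_neg]
    exact eq_inv_of_mul_eq_one_left h1
  · -- j < i
    refine ⟨(i : ℕ) - j, by omega, by omega, z, ?_⟩
    have hi : (i : ℕ) = j + (i - j) := by omega
    rw [hi, pow_add] at hz
    exact mul_left_cancel₀ (pow_ne_zero (j : ℕ) hvx) hz

/-- For every `x ≠ 0`, `v x ^ n!` lies in `γ^ℤ`, `n = [F : E]`. -/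
theorem exists_zpow_eq (E : IntermediateField k F) [FiniteDimensional E F]
    {Γ : Type*} [LinearOrderedCommGroupWithZero Γ] (v : Valuation F Γ) (γ : Γ)
    (hE : ∀ c ∈ E, c ≠ 0 → ∃ z : ℤ, v c = γ ^ z) (hγ : γ ≠ 0) (x : F) (hx : x ≠ 0) :
    ∃ a : ℤ, v x ^ (Module.finrank E F).factorial = γ ^ a := by
  obtain ⟨m, hm1, hmn, a, ha⟩ := exists_pow_eq E v γ hE hγ x hx
  obtain ⟨q, hq⟩ := Nat.dvd_factorial (by omega : 0 < m) hmn
  refine ⟨a * q, ?_⟩
  rw [hq, pow_mul, ha, zpow_mul, zpow_natCast]

/-- If the values of a subfield `E` with `[F : E] < ∞` form the cyclic group generated by the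
value of a non-unit `π`, then the valuation subring is a principal ideal ring. -/
theorem isPrincipalIdealRing_of_cyclic (E : IntermediateField k F) [FiniteDimensional E F]
    (V : ValuationSubring F) (π : F) (hπ0 : π ≠ 0) (hπ : V.valuation π < 1)
    (hE : ∀ c ∈ E, c ≠ 0 → ∃ z : ℤ, V.valuation c = V.valuation π ^ z) :
    IsPrincipalIdealRing V := by
  classical
  have hγ : V.valuation π ≠ 0 := (Valuation.ne_zero_iff _).mpr hπ0
  have hγpos : 0 < V.valuation π := zero_lt_iff.mpr hγ
  have hM : (Module.finrank E F).factorial ≠ 0 := Nat.factorial_ne_zero _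
  choose A hA using fun (x : F) (hx : x ≠ 0) => exists_zpow_eq E V.valuation _ hE hγ x hx
  -- monotonicity
  have hord : ∀ (x y : F) (hx : x ≠ 0) (hy : y ≠ 0), A x hx ≤ A y hy →
      V.valuation y ≤ V.valuation x := by
    intro x y hx hy hle
    have h1 : V.valuation y ^ (Module.finrank E F).factorial ≤
        V.valuation x ^ (Module.finrank E F).factorial := by
      rw [hA x hx, hA y hy]
      obtain ⟨d, hd⟩ := Int.le.dest hle
      rw [← hd, zpow_add₀ hγ, zpow_natCast]
      exact mul_le_of_le_one_right' (pow_le_one' hπ.le d)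
    by_contra hlt
    push Not at hlt
    exact absurd h1 (not_le.mpr (pow_lt_pow_left₀ hlt zero_le hM))
  -- nonnegativity on `V`
  have hnn : ∀ (x : F) (hx : x ≠ 0), x ∈ V → 0 ≤ A x hx := by
    intro x hx hxV
    by_contra hneg
    push Not at hneg
    have h1 : V.valuation x ^ (Module.finrank E F).factorial ≤ 1 :=
      pow_le_one' ((V.valuation_le_one_iff x).mpr hxV) _
    rw [hA x hx] at h1
    exact absurd h1 (not_le.mpr (one_lt_zpow_of_neg₀ hγpos hπ hneg))
  refine ⟨fun I => ?_⟩
  by_cases hI : I = ⊥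
  · rw [hI]; exact bot_isPrincipal
  obtain ⟨x1, hx1I, hx1⟩ := Submodule.exists_mem_ne_zero_of_ne_bot hI
  have hx1F : (x1 : F) ≠ 0 := fun h => hx1 (Subtype.ext h)
  have hex : ∃ m : ℕ, ∃ x : V, ∃ hx : (x : F) ≠ 0, x ∈ I ∧ A (x : F) hx = m :=
    ⟨(A x1 hx1F).toNat, x1, hx1F, hx1I, (Int.toNat_of_nonneg (hnn _ hx1F x1.2)).symm⟩
  obtain ⟨x0, hx0, hx0I, hAx0⟩ := Nat.find_spec hex
  refine ⟨⟨x0, le_antisymm (fun y hy => ?_) ?_⟩⟩
  · by_cases hy0 : y = 0
    · rw [hy0]; exact Submodule.zero_mem _
    have hyF : (y : F) ≠ 0 := fun h => hy0 (Subtype.ext h)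
    have hmin : Nat.find hex ≤ (A (y : F) hyF).toNat :=
      Nat.find_min' hex ⟨y, hyF, hy, (Int.toNat_of_nonneg (hnn _ hyF y.2)).symm⟩
    have hle : A (x0 : F) hx0 ≤ A (y : F) hyF := by
      rw [hAx0, ← Int.toNat_of_nonneg (hnn _ hyF y.2)]
      exact_mod_cast hmin
    obtain ⟨a, ha⟩ := (V.valuation_le_iff (y : F) (x0 : F)).mp (hord _ _ hx0 hyF hle)
    exact Ideal.mem_span_singleton'.mpr ⟨a, Subtype.ext ha⟩
  · rw [Ideal.submodule_span_eq, Ideal.span_le]
    intro z hz
    rw [Set.mem_singleton_iff.mp hz]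
    exact hx0I

/-- If every nonzero element of a subfield `E` with `F / E` algebraic is a unit of the valuation
subring `V`, then `V = ⊤`. -/
theorem eq_top_of_forall_valuation_eq_one (E : IntermediateField k F) [Algebra.IsAlgebraic E F]
    (V : ValuationSubring F) (hA : ∀ c ∈ E, c ≠ 0 → V.valuation c = 1) : V = ⊤ := by
  refine ValuationSubring.ext _ _ fun x => ⟨fun _ => ValuationSubring.mem_top x, fun _ => ?_⟩
  by_contra hx
  have hx1 : 1 < V.valuation x := not_le.mp fun h => hx ((V.valuation_le_one_iff x).mp h)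
  have hint : IsIntegral E x := (Algebra.IsAlgebraic.isAlgebraic x).isIntegral
  have hmon := minpoly.monic hint
  have hd : 0 < (minpoly E x).natDegree := minpoly.natDegree_pos hint
  have h0 := minpoly.aeval E x
  rw [Polynomial.aeval_eq_sum_range, Finset.sum_range_succ, hmon.coeff_natDegree, one_smul] at h0
  have hxd : x ^ (minpoly E x).natDegree =
      -∑ i ∈ Finset.range (minpoly E x).natDegree, (minpoly E x).coeff i • x ^ i :=
    eq_neg_of_add_eq_zero_right h0
  have hle : V.valuation (x ^ (minpoly E x).natDegree) ≤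
      V.valuation x ^ ((minpoly E x).natDegree - 1) := by
    rw [hxd, Valuation.map_neg]
    refine Valuation.map_sum_le _ fun i hi => ?_
    have hi' : i ≤ (minpoly E x).natDegree - 1 := by
      have := Finset.mem_range.mp hi
      omega
    have hc : V.valuation (((minpoly E x).coeff i : E) : F) ≤ 1 := by
      by_cases hc0 : (minpoly E x).coeff i = 0
      · rw [hc0]; simp
      · exact (hA _ ((minpoly E x).coeff i).2 (by exact_mod_cast hc0)).le
    calc V.valuation ((minpoly E x).coeff i • x ^ i)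
        = V.valuation (((minpoly E x).coeff i : E) : F) * V.valuation x ^ i := by
          rw [IntermediateField.smul_def, smul_eq_mul, map_mul, map_pow]
      _ ≤ 1 * V.valuation x ^ ((minpoly E x).natDegree - 1) :=
          mul_le_mul' hc (pow_le_pow_right' hx1.le hi')
      _ = _ := one_mul _
  rw [map_pow] at hle
  exact absurd hle (not_le.mpr (pow_lt_pow_right₀ hx1 (by omega)))

theorem aeval_mem_valuationSubring (V : ValuationSubring F) (hk : ∀ a : k, algebraMap k F a ∈ V)
    {t : F} (ht : t ∈ V) (p : k[X]) : aeval t p ∈ V := by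
  rw [Polynomial.aeval_eq_sum_range]
  refine sum_mem fun i _ => ?_
  rw [Algebra.smul_def]
  exact mul_mem (hk _) (pow_mem ht i)

theorem valuation_algebraMap_eq_one (V : ValuationSubring F)
    (hk : ∀ a : k, algebraMap k F a ∈ V) {a : k} (ha : a ≠ 0) :
    V.valuation (algebraMap k F a) = 1 := by
  have h1 := (V.valuation_le_one_iff _).mpr (hk a)
  have h2 := (V.valuation_le_one_iff _).mpr (hk a⁻¹)
  have h3 : V.valuation (algebraMap k F a) * V.valuation (algebraMap k F a⁻¹) = 1 := by
    rw [← map_mul, ← map_mul, mul_inv_cancel₀ ha, map_one, map_one]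
  refine le_antisymm h1 ?_
  calc 1 = V.valuation (algebraMap k F a) * V.valuation (algebraMap k F a⁻¹) := h3.symm
    _ ≤ V.valuation (algebraMap k F a) * 1 := mul_le_mul_right h2 _
    _ = _ := mul_one _

/-- If `t ∈ V` and `k(t)` is not contained in the units of `V`, the values of `k(t)ˣ` form the
cyclic group generated by the value of `π = P(t)`, `P` a polynomial of minimal degree with
`0 < v (P(t)) < 1`. -/
theorem exists_uniformizer_of_mem (V : ValuationSubring F) (hk : ∀ a : k, algebraMap k F a ∈ V)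
    {t : F} (ht : t ∈ V) (hB : ∃ c ∈ k⟮t⟯, c ≠ 0 ∧ V.valuation c ≠ 1) :
    ∃ π : F, π ≠ 0 ∧ V.valuation π < 1 ∧
      ∀ c ∈ k⟮t⟯, c ≠ 0 → ∃ z : ℤ, V.valuation c = V.valuation π ^ z := by
  classical
  have hle : ∀ p : k[X], V.valuation (aeval t p) ≤ 1 := fun p =>
    (V.valuation_le_one_iff _).mpr (aeval_mem_valuationSubring V hk ht p)
  have hex : ∃ d : ℕ, ∃ p : k[X], p.natDegree = d ∧ aeval t p ≠ 0 ∧
      V.valuation (aeval t p) < 1 := by
    obtain ⟨c, hc, hc0, hc1⟩ := hB
    obtain ⟨r, s, rfl⟩ := (IntermediateField.mem_adjoin_simple_iff k c).mp hc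
    have hr0 : aeval t r ≠ 0 := fun h => hc0 (by rw [h, zero_div])
    have hs0 : aeval t s ≠ 0 := fun h => hc0 (by rw [h, div_zero])
    by_cases hr1 : V.valuation (aeval t r) < 1
    · exact ⟨_, r, rfl, hr0, hr1⟩
    by_cases hs1 : V.valuation (aeval t s) < 1
    · exact ⟨_, s, rfl, hs0, hs1⟩
    exfalso
    apply hc1
    have e1 : V.valuation (aeval t r) = 1 := le_antisymm (hle r) (not_lt.mp hr1)
    have e2 : V.valuation (aeval t s) = 1 := le_antisymm (hle s) (not_lt.mp hs1)
    rw [map_div₀, e1, e2, div_one]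
  obtain ⟨P, hPd, hP0, hP1⟩ := Nat.find_spec hex
  have hmin : ∀ q : k[X], aeval t q ≠ 0 → V.valuation (aeval t q) < 1 →
      P.natDegree ≤ q.natDegree := by
    intro q hq0 hq1
    rw [hPd]
    exact Nat.find_min' hex ⟨q, rfl, hq0, hq1⟩
  have hPne : P ≠ 0 := fun h => hP0 (by rw [h, map_zero])
  have hPnat : P.natDegree ≠ 0 := by
    intro hcon
    have hPC : P = C (P.coeff 0) := eq_C_of_natDegree_eq_zero hcon
    rw [hPC, aeval_C] at hP0 hP1
    have hc0 : P.coeff 0 ≠ 0 := fun h => hP0 (by rw [h, map_zero])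
    exact absurd (valuation_algebraMap_eq_one V hk hc0) hP1.ne
  have hPdeg : 0 < P.degree := by
    rw [Polynomial.degree_eq_natDegree hPne]
    exact_mod_cast Nat.pos_of_ne_zero hPnat
  have key : ∀ n : ℕ, ∀ q : k[X], q.natDegree = n → aeval t q ≠ 0 →
      ∃ a : ℕ, V.valuation (aeval t q) = V.valuation (aeval t P) ^ a := by
    intro n
    induction n using Nat.strong_induction_on with
    | _ n ih =>
      intro q hqn hq0
      by_cases hq1 : V.valuation (aeval t q) < 1
      · have hdm : P * (q / P) + q % P = q := EuclideanDomain.div_add_mod q P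
        have hr : aeval t (q % P) = 0 := by
          by_contra hr0
          have hrlt : V.valuation (aeval t (q % P)) < 1 := by
            have : aeval t (q % P) = aeval t q - aeval t P * aeval t (q / P) := by
              rw [← map_mul, ← map_sub]
              congr 1
              rw [eq_sub_iff_add_eq, add_comm]
              exact hdm
            rw [this]
            refine lt_of_le_of_lt (Valuation.map_sub _ _ _) (max_lt hq1 ?_)
            rw [map_mul]
            exact lt_of_le_of_lt (mul_le_of_le_one_right' (hle _)) hP1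
          have h1 := hmin _ hr0 hrlt
          have h2 : (q % P).natDegree < P.natDegree := Polynomial.natDegree_mod_lt q hPnat
          omega
        have hq' : aeval t q = aeval t P * aeval t (q / P) := by
          have h := congrArg (aeval t) hdm
          rw [map_add, map_mul, hr, add_zero] at h
          exact h.symm
        have hs0 : aeval t (q / P) ≠ 0 := fun h => hq0 (by rw [hq', h, mul_zero])
        have hqne : q ≠ 0 := fun h => hq0 (by rw [h, map_zero])
        have hsne : q / P ≠ 0 := fun h => hs0 (by rw [h, map_zero])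
        have hslt : (q / P).natDegree < n := by
          rw [← hqn]
          exact Polynomial.natDegree_lt_natDegree hsne (Polynomial.degree_div_lt hqne hPdeg)
        obtain ⟨a, ha⟩ := ih _ hslt (q / P) rfl hs0
        exact ⟨a + 1, by rw [hq', map_mul, ha, pow_succ, mul_comm]⟩
      · exact ⟨0, by rw [pow_zero]; exact le_antisymm (hle q) (not_lt.mp hq1)⟩
  refine ⟨aeval t P, hP0, hP1, fun c hc hc0 => ?_⟩
  obtain ⟨r, s, rfl⟩ := (IntermediateField.mem_adjoin_simple_iff k c).mp hc
  have hr0 : aeval t r ≠ 0 := fun h => hc0 (by rw [h, zero_div])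
  have hs0 : aeval t s ≠ 0 := fun h => hc0 (by rw [h, div_zero])
  obtain ⟨a, ha⟩ := key _ r rfl hr0
  obtain ⟨b, hb⟩ := key _ s rfl hs0
  refine ⟨(a : ℤ) - b, ?_⟩
  rw [map_div₀, ha, hb, zpow_sub₀ ((Valuation.ne_zero_iff _).mpr hP0), zpow_natCast, zpow_natCast]

theorem adjoin_simple_inv_eq (t : F) : k⟮t⁻¹⟯ = k⟮t⟯ := by
  apply le_antisymm
  · rw [IntermediateField.adjoin_simple_le_iff]
    exact inv_mem (IntermediateField.mem_adjoin_simple_self k t)
  · rw [IntermediateField.adjoin_simple_le_iff]
    have := inv_mem (IntermediateField.mem_adjoin_simple_self k t⁻¹)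
    rwa [inv_inv] at this

/-- **Valuation subrings of a one-variable function field are discrete.**  If `F` is finite over
`k(t)`, every valuation subring `V ≠ ⊤` of `F` containing `k` is a principal ideal ring. -/
theorem isPrincipalIdealRing_of_finiteDimensional (t : F) [FiniteDimensional k⟮t⟯ F]
    (V : ValuationSubring F) (hk : ∀ a : k, algebraMap k F a ∈ V) (hV : V ≠ ⊤) :
    IsPrincipalIdealRing V := by
  have hB : ∃ c ∈ k⟮t⟯, c ≠ 0 ∧ V.valuation c ≠ 1 := by
    by_contra hcon
    push Not at hcon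
    exact hV (eq_top_of_forall_valuation_eq_one k⟮t⟯ V hcon)
  obtain ⟨π, hπ0, hπ1, hE⟩ : ∃ π : F, π ≠ 0 ∧ V.valuation π < 1 ∧
      ∀ c ∈ k⟮t⟯, c ≠ 0 → ∃ z : ℤ, V.valuation c = V.valuation π ^ z := by
    rcases V.mem_or_inv_mem t with ht | ht
    · exact exists_uniformizer_of_mem V hk ht hB
    · have := exists_uniformizer_of_mem V hk ht (by rwa [adjoin_simple_inv_eq])
      rwa [adjoin_simple_inv_eq] at this
  exact isPrincipalIdealRing_of_cyclic k⟮t⟯ V π hπ0 hπ1 hE

end Fermat.Agent.S18.H78
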