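import Mathlib
import Fermat.Prelude.Def_AlgebraicCurve_DivisorClassGroup
import Fermat.Agent.S24.H52.AddVal
import Fermat.Agent.S18.H78.ValDVR

/-!
# S18 / T-CONST support (helper78): "no poles ⇒ constant", generic form

Let `k` be algebraically closed and `F / k` a field that is finite over `k(t)` for some `t : F`.

* `placeOfValuationSubring` : every valuation subring `V ≠ ⊤` of `F` containing `k` is (the
  valuation ring of) a Prelude `Place k F`  (by `isPrincipalIdealRing_of_finiteDimensional`).
* `const_of_forall_ord_nonneg` : an element of `F` that is regular at every place is a constant.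
* `const_of_forall_ord_eq_zero` : the same for an element without zeros and poles.

Proof: the intersection of all valuation subrings of `F` containing `k` is the integral closure of
`k` in `F` (Mathlib, `Subring.exists_le_valuationSubring_of_isIntegrallyClosedIn`), which is `k`.
No separability, no Dedekind domains, no reduction map.
-/

set_option autoImplicit false

open Polynomial IntermediateField AlgebraicCurve

namespace Fermat.Agent.S18.H78

variable {k F : Type*} [Field k] [Field F] [Algebra k F]

/-- A valuation subring `V ≠ ⊤` containing the constants, as a Prelude place. -/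
noncomputable def placeOfValuationSubring (t : F) [FiniteDimensional k⟮t⟯ F]
    (V : ValuationSubring F) (hk : ∀ a : k, algebraMap k F a ∈ V) (hV : V ≠ ⊤) : Place k F where
  toValuationSubring := V
  algebraMap_mem' := hk
  ne_top' := hV
  isPrincipalIdealRing' := isPrincipalIdealRing_of_finiteDimensional t V hk hV

@[simp]
theorem placeOfValuationSubring_toValuationSubring (t : F) [FiniteDimensional k⟮t⟯ F]
    (V : ValuationSubring F) (hk : ∀ a : k, algebraMap k F a ∈ V) (hV : V ≠ ⊤) :
    (placeOfValuationSubring t V hk hV).toValuationSubring = V := rfl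

/-- An element integral over the image of an algebraically closed field is a constant. -/
theorem mem_range_of_isIntegral_range [IsAlgClosed k] {f : F}
    (hf : IsIntegral (algebraMap k F).range f) : ∃ c : k, f = algebraMap k F c := by
  have hint : IsIntegral k f := by
    obtain ⟨p, hp, hpf⟩ := hf
    have hsurj : Function.Surjective (algebraMap k F).rangeRestrict :=
      (algebraMap k F).rangeRestrict_surjective
    obtain ⟨q, hq, -, hqm⟩ := Polynomial.lifts_and_natDegree_eq_and_monic
      ((Polynomial.mem_lifts p).mpr (Polynomial.map_surjective _ hsurj p)) hp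
    refine ⟨q, hqm, ?_⟩
    rw [← hq, Polynomial.eval₂_map] at hpf
    exact hpf
  have hdeg : (minpoly k f).degree = 1 :=
    IsAlgClosed.degree_eq_one_of_irreducible k (minpoly.irreducible hint)
  obtain ⟨c, hc⟩ := minpoly.mem_range_of_degree_eq_one k f hdeg
  exact ⟨c, hc.symm⟩

/-- **Regular everywhere ⇒ constant.** -/
theorem const_of_forall_ord_nonneg [IsAlgClosed k] (t : F) [FiniteDimensional k⟮t⟯ F] (f : F)
    (h : ∀ Q : Place k F, 0 ≤ Q.ord f) : ∃ c : k, f = algebraMap k F c := by
  by_cases hf0 : f = 0
  · exact ⟨0, by rw [hf0, map_zero]⟩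
  have hic : IsIntegrallyClosedIn (algebraMap k F).range F := by
    rw [Subring.isIntegrallyClosedIn_iff]
    intro x hx
    obtain ⟨c, hc⟩ := mem_range_of_isIntegral_range hx
    exact ⟨c, hc.symm⟩
  by_contra hcon
  have hfR : f ∉ (algebraMap k F).range := fun ⟨c, hc⟩ => hcon ⟨c, hc.symm⟩
  obtain ⟨V, hRV, hfV⟩ := Subring.exists_le_valuationSubring_of_isIntegrallyClosedIn hfR
  have hk : ∀ a : k, algebraMap k F a ∈ V := fun a => hRV ⟨a, rfl⟩
  have hV : V ≠ ⊤ := fun htop => hfV (htop ▸ ValuationSubring.mem_top f)
  exact hfV ((Fermat.Agent.S24.H52.mem_iff_ord_nonneg (placeOfValuationSubring t V hk hV) hf0).mpr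
    (h _))

/-- **No zeros and no poles ⇒ constant.** -/
theorem const_of_forall_ord_eq_zero [IsAlgClosed k] (t : F) [FiniteDimensional k⟮t⟯ F] (f : F)
    (h : ∀ Q : Place k F, Q.ord f = 0) : ∃ c : k, f = algebraMap k F c :=
  const_of_forall_ord_nonneg t f fun Q => (h Q).ge

end Fermat.Agent.S18.H78
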