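/-
S18 / wave 4 (helper78): core 2, leaf K2-N, generic core of step G2 of the blueprint (#1509).

`F/K(x)` finite with a basis `b`.  For a subfield `E₀` of `K(x)` (in the application `E₀ = K₀(x)`
for a number field `K₀`), the set of elements of `F` whose `b`-coordinates lie in `E₀` is a
subfield of `F` as soon as `E₀` contains `x` and the image of a finite set `Z ⊆ K` (the
coefficients of the structure constants of `b`, of the coordinates of `1` and of the coordinates
of finitely many prescribed elements `T`).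
-/
import Mathlib

set_option autoImplicit false

open IntermediateField Polynomial

namespace Fermat.Agent.S18.H78

variable {K : Type*} [Field K] {F : Type*} [Field F] [Algebra K F]

section Coord

variable (x : F) {ι : Type*} (b : Module.Basis ι K⟮x⟯ F) (E₀ : Subfield F)

/-- `f` has all its `b`-coordinates in `E₀`. -/
def CoordIn (f : F) : Prop := ∀ i, ((b.repr f i : K⟮x⟯) : F) ∈ E₀

variable {x b E₀}

theorem coordIn_zero : CoordIn x b E₀ 0 := fun i => by
  simp only [map_zero, Finsupp.coe_zero, Pi.zero_apply, ZeroMemClass.coe_zero]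
  exact E₀.zero_mem

theorem coordIn_add {f g : F} (hf : CoordIn x b E₀ f) (hg : CoordIn x b E₀ g) :
    CoordIn x b E₀ (f + g) := fun i => by
  simp only [map_add, Finsupp.coe_add, Pi.add_apply, AddMemClass.coe_add]
  exact E₀.add_mem (hf i) (hg i)

theorem coordIn_sum {κ : Type*} (s : Finset κ) (f : κ → F)
    (hf : ∀ k ∈ s, CoordIn x b E₀ (f k)) : CoordIn x b E₀ (∑ k ∈ s, f k) := by
  classical
  induction s using Finset.induction_on with
  | empty => simpa using coordIn_zero
  | insert a s ha ih =>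
    rw [Finset.sum_insert ha]
    exact coordIn_add (hf a (Finset.mem_insert_self a s))
      (ih fun k hk => hf k (Finset.mem_insert_of_mem hk))

theorem coordIn_smul {r : K⟮x⟯} (hr : (r : F) ∈ E₀) {f : F} (hf : CoordIn x b E₀ f) :
    CoordIn x b E₀ (r • f) := fun i => by
  simp only [map_smul, Finsupp.coe_smul, Pi.smul_apply, smul_eq_mul, MulMemClass.coe_mul]
  exact E₀.mul_mem hr (hf i)

theorem coordIn_basis (j : ι) : CoordIn x b E₀ (b j) := fun i => by
  classical
  rw [Module.Basis.repr_self, Finsupp.single_apply]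
  split_ifs
  · simp only [OneMemClass.coe_one]; exact E₀.one_mem
  · simp only [ZeroMemClass.coe_zero]; exact E₀.zero_mem

theorem coordIn_mul [Fintype ι] (hstruct : ∀ i j, CoordIn x b E₀ (b i * b j)) {f g : F}
    (hf : CoordIn x b E₀ f) (hg : CoordIn x b E₀ g) : CoordIn x b E₀ (f * g) := by
  have h : f * g = ∑ i, ∑ j, (b.repr f i * b.repr g j) • (b i * b j) := by
    conv_lhs => rw [← b.sum_repr f, ← b.sum_repr g]
    rw [Finset.sum_mul]
    refine Finset.sum_congr rfl fun i _ => ?_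
    rw [Finset.mul_sum]
    refine Finset.sum_congr rfl fun j _ => ?_
    rw [smul_mul_assoc, mul_smul_comm, smul_smul]
  rw [h]
  refine coordIn_sum _ _ fun i _ => coordIn_sum _ _ fun j _ => coordIn_smul ?_ (hstruct i j)
  simp only [MulMemClass.coe_mul]
  exact E₀.mul_mem (hf i) (hg j)

theorem coordIn_of_mem (hone : CoordIn x b E₀ 1) (hle : ∀ r ∈ E₀, r ∈ K⟮x⟯) {r : F}
    (hr : r ∈ E₀) : CoordIn x b E₀ r := by
  have h : r = (⟨r, hle r hr⟩ : K⟮x⟯) • (1 : F) := by
    rw [Algebra.smul_def, mul_one]; rfl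
  rw [h]
  exact coordIn_smul hr hone

/-- The subalgebra (over the field `E₀`) of the elements with coordinates in `E₀`. -/
def coordAlg [Fintype ι] (hone : CoordIn x b E₀ 1) (hstruct : ∀ i j, CoordIn x b E₀ (b i * b j))
    (hle : ∀ r ∈ E₀, r ∈ K⟮x⟯) : Subalgebra ↥E₀ F where
  carrier := {f | CoordIn x b E₀ f}
  mul_mem' := fun hf hg => coordIn_mul hstruct hf hg
  add_mem' := fun hf hg => coordIn_add hf hg
  algebraMap_mem' := fun r => coordIn_of_mem hone hle r.2

theorem mem_coordAlg [Fintype ι] (hone : CoordIn x b E₀ 1) (hstruct : ∀ i j, CoordIn x b E₀ (b i * b j))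
    (hle : ∀ r ∈ E₀, r ∈ K⟮x⟯) (f : F) :
    f ∈ coordAlg hone hstruct hle ↔ CoordIn x b E₀ f := Iff.rfl

/-- An element with coordinates in `E₀` is integral over `E₀` (Cayley–Hamilton for the matrix of
the multiplication by `f`, which has entries in `E₀`). -/
theorem isIntegral_of_coordIn [Fintype ι] [DecidableEq ι] (hstruct : ∀ i j, CoordIn x b E₀ (b i * b j))
    (hle : ∀ r ∈ E₀, r ∈ K⟮x⟯) {f : F} (hf : CoordIn x b E₀ f) : IsIntegral ↥E₀ f := by
  -- the inclusion `E₀ → K(x)`
  let φ : ↥E₀ →+* K⟮x⟯ := E₀.subtype.codRestrict K⟮x⟯ fun r => hle r r.2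
  have hφ : ∀ r : ↥E₀, ((φ r : K⟮x⟯) : F) = (r : F) := fun r => rfl
  -- the matrix of the multiplication by `f`
  have hent : ∀ i j, ((Algebra.leftMulMatrix b f i j : K⟮x⟯) : F) ∈ E₀ := fun i j => by
    rw [Algebra.leftMulMatrix_eq_repr_mul]
    exact coordIn_mul hstruct hf (coordIn_basis j) i
  let M₀ : Matrix ι ι ↥E₀ := fun i j => ⟨_, hent i j⟩
  have hM : Algebra.leftMulMatrix b f = M₀.map φ := by
    ext i j
    rfl
  have h0 : aeval f (Algebra.leftMulMatrix b f).charpoly = 0 := by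
    apply Algebra.leftMulMatrix_injective b
    rw [← Polynomial.aeval_algHom_apply, Matrix.aeval_self_charpoly, map_zero]
  refine ⟨M₀.charpoly, Matrix.charpoly_monic M₀, ?_⟩
  rw [hM, Matrix.charpoly_map, Polynomial.aeval_def, Polynomial.eval₂_map] at h0
  exact h0

end Coord

/-- A finite set of coefficients in `K` such that `r ∈ K(x)` lies in every subfield of `F`
containing `x` and the image of this set. -/
theorem exists_finset_mem_of_mem_adjoin (x : F) (r : K⟮x⟯) :
    ∃ Z : Finset K, ∀ E₀ : Subfield F, (∀ z ∈ Z, algebraMap K F z ∈ E₀) → x ∈ E₀ →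
      (r : F) ∈ E₀ := by
  classical
  obtain ⟨P, Q, hPQ⟩ := (IntermediateField.mem_adjoin_simple_iff K (r : F)).mp r.2
  have key : ∀ (p : K[X]) (E₀ : Subfield F), (∀ z ∈ p.coeffs, algebraMap K F z ∈ E₀) → x ∈ E₀ →
      aeval x p ∈ E₀ := by
    intro p E₀ hz hx
    rw [Polynomial.aeval_eq_sum_range]
    refine E₀.sum_mem fun i _ => ?_
    rw [Algebra.smul_def]
    refine E₀.mul_mem ?_ (E₀.pow_mem hx i)
    by_cases hi : p.coeff i = 0
    · rw [hi, map_zero]; exact E₀.zero_mem
    · exact hz _ (Polynomial.coeff_mem_coeffs hi)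
  refine ⟨P.coeffs ∪ Q.coeffs, fun E₀ hz hx => ?_⟩
  rw [hPQ]
  exact E₀.div_mem (key P E₀ (fun z hz' => hz z (Finset.mem_union_left _ hz')) hx)
    (key Q E₀ (fun z hz' => hz z (Finset.mem_union_right _ hz')) hx)

/-- The same for a finite family. -/
theorem exists_finset_mem_of_mem_adjoin_family (x : F) {κ : Type*} (s : Finset κ)
    (r : κ → K⟮x⟯) :
    ∃ Z : Finset K, ∀ E₀ : Subfield F, (∀ z ∈ Z, algebraMap K F z ∈ E₀) → x ∈ E₀ →
      ∀ k ∈ s, (r k : F) ∈ E₀ := by
  classical
  choose Z hZ using fun k => exists_finset_mem_of_mem_adjoin x (r k)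
  exact ⟨s.biUnion Z, fun E₀ hz hx k hk =>
    hZ k E₀ (fun z hz' => hz z (Finset.mem_biUnion.mpr ⟨k, hk, hz'⟩)) hx⟩

/-- **G2 (generic core).**  There is a finite set `Z ⊆ K` such that for every subfield `E₀` of
`K(x)` containing `x` and the image of `Z`, the elements of `F` with `b`-coordinates in `E₀`
form a subfield `F₀` of `F` containing `E₀`, the basis `b` and the prescribed finite set `T`. -/
theorem exists_finset_coordField (x : F) {ι : Type*} [Fintype ι] [DecidableEq ι]
    (b : Module.Basis ι K⟮x⟯ F) (T : Finset F) :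
    ∃ Z : Finset K, ∀ E₀ : Subfield F, (∀ z ∈ Z, algebraMap K F z ∈ E₀) → x ∈ E₀ →
      (∀ r ∈ E₀, r ∈ K⟮x⟯) →
      ∃ F₀ : Subfield F, (∀ f : F, f ∈ F₀ ↔ ∀ i, ((b.repr f i : K⟮x⟯) : F) ∈ E₀) ∧ E₀ ≤ F₀ ∧
        (∀ i, b i ∈ F₀) ∧ (∀ t ∈ T, t ∈ F₀) := by
  classical
  -- the three finite families of coordinates
  obtain ⟨Z₁, hZ₁⟩ := exists_finset_mem_of_mem_adjoin_family x
    (Finset.univ : Finset (ι × ι × ι)) (fun t => b.repr (b t.1 * b t.2.1) t.2.2)
  obtain ⟨Z₂, hZ₂⟩ := exists_finset_mem_of_mem_adjoin_family x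
    (Finset.univ : Finset ι) (fun k => b.repr 1 k)
  obtain ⟨Z₃, hZ₃⟩ := exists_finset_mem_of_mem_adjoin_family x
    (T.attach ×ˢ (Finset.univ : Finset ι)) (fun t => b.repr (t.1 : F) t.2)
  refine ⟨Z₁ ∪ Z₂ ∪ Z₃, fun E₀ hz hx hle => ?_⟩
  have hstruct : ∀ i j, CoordIn x b E₀ (b i * b j) := fun i j k =>
    hZ₁ E₀ (fun z hz' => hz z (Finset.mem_union_left _ (Finset.mem_union_left _ hz'))) hx
      (i, j, k) (Finset.mem_univ _)
  have hone : CoordIn x b E₀ 1 := fun k =>
    hZ₂ E₀ (fun z hz' => hz z (Finset.mem_union_left _ (Finset.mem_union_right _ hz'))) hx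
      k (Finset.mem_univ _)
  have hT : ∀ t ∈ T, CoordIn x b E₀ t := fun t ht k =>
    hZ₃ E₀ (fun z hz' => hz z (Finset.mem_union_right _ hz')) hx
      (⟨t, ht⟩, k) (Finset.mem_product.mpr ⟨Finset.mem_attach _ _, Finset.mem_univ _⟩)
  refine ⟨{ (coordAlg hone hstruct hle).toSubring with
      inv_mem' := fun f hf => ?_ }, fun f => Iff.rfl, fun r hr => coordIn_of_mem hone hle hr,
    fun i => coordIn_basis i, hT⟩
  exact Subalgebra.inv_mem_of_algebraic (A := coordAlg hone hstruct hle) (x := ⟨f, hf⟩)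
    (isIntegral_of_coordIn hstruct hle hf).isAlgebraic

end Fermat.Agent.S18.H78
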