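/-
S18 / wave 4 (helper78): core 2, leaf K2-N, step G2 of the blueprint (#1509) in the packaging of
`exists_descent` (`K₀ : IntermediateField k K`, `F₀ : IntermediateField K₀ F`, `algComap`,
`ratSub`).

`exists_good_pair`: for a basis `b` of `F/K(x)`, finite sets `T ⊆ F`, `Z₀ ⊆ K` (`K/k` algebraic)
and a valuation subring `A` of `K`, there are a finite subextension `K₀ ⊇ Z₀` of `K/k` and an
intermediate field `F₀` of `F/K₀` containing `x`, `b`, `T` in which every element is a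
`K₀(x)`-combination of `b`, where `K₀(x) = ratSub (A ∩ K₀) x ⊆ F₀`.
-/
import Mathlib
import Fermat.Agent.S18.H19.Core2Defs
import Fermat.Agent.S18.H78.CoordField

set_option autoImplicit false

open IntermediateField Polynomial

namespace Fermat.Agent.S18.H78

open Fermat.Agent.S18.H19

variable {k K : Type*} [Field k] [Field K] [Algebra k K] {F : Type*} [Field F] [Algebra K F]

/-- The subfield `K₀(x)` of `F`. -/
def ratSubF (K₀ : IntermediateField k K) (x : F) : Subfield F :=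
  Subfield.closure (Set.range (algebraMap K₀ F) ∪ {x})

theorem ratSubF_le (K₀ : IntermediateField k K) (x : F) :
    ∀ r ∈ ratSubF K₀ x, r ∈ K⟮x⟯ := by
  intro r hr
  have h : ratSubF K₀ x ≤ K⟮x⟯.toSubfield := by
    unfold ratSubF
    rw [Subfield.closure_le]
    rintro y (⟨a, rfl⟩ | hy)
    · exact K⟮x⟯.algebraMap_mem (a : K)
    · rw [Set.mem_singleton_iff] at hy
      rw [hy]
      exact mem_adjoin_simple_self K x
  exact h hr

/-- `K₀(x) ⊆ F`, computed inside an intermediate field `F₀ ∋ x` from the valuation subring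
`A ∩ K₀` of `K₀`, is the image of `ratSub (A ∩ K₀) x`. -/
theorem exists_mem_ratSub_of_mem_ratSubF (A : ValuationSubring K) (K₀ : IntermediateField k K)
    (F₀ : IntermediateField K₀ F) (x : F) (hx₀ : x ∈ F₀) {y : F} (hy : y ∈ ratSubF K₀ x) :
    letI := algComap (A.comap (algebraMap K₀ K)) F₀
    ∃ r : ratSub ↥(A.comap (algebraMap K₀ K)) (⟨x, hx₀⟩ : F₀), ((r : F₀) : F) = y := by
  let _ := algComap (A.comap (algebraMap K₀ K)) F₀
  have key : ratSubF K₀ x ≤
      (ratSub ↥(A.comap (algebraMap K₀ K)) (⟨x, hx₀⟩ : F₀)).map (algebraMap F₀ F) := by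
    unfold ratSubF
    rw [Subfield.closure_le]
    rintro z (⟨a, rfl⟩ | hz)
    · -- constants: `a ∈ A₀` or `a⁻¹ ∈ A₀`
      rcases (A.comap (algebraMap K₀ K)).mem_or_inv_mem a with ha | ha
      · refine ⟨algebraMap ↥(A.comap (algebraMap K₀ K)) F₀ ⟨a, ha⟩,
          Subfield.subset_closure (Or.inl ⟨⟨a, ha⟩, rfl⟩), rfl⟩
      · have h1 : (algebraMap ↥(A.comap (algebraMap K₀ K)) F₀ ⟨a⁻¹, ha⟩)⁻¹ ∈
            ratSub ↥(A.comap (algebraMap K₀ K)) (⟨x, hx₀⟩ : F₀) :=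
          inv_mem (Subfield.subset_closure (Or.inl ⟨⟨a⁻¹, ha⟩, rfl⟩))
        refine ⟨_, h1, ?_⟩
        rw [map_inv₀]
        change (algebraMap K₀ F a⁻¹)⁻¹ = algebraMap K₀ F a
        rw [map_inv₀, inv_inv]
    · rw [Set.mem_singleton_iff] at hz
      rw [hz]
      exact ⟨⟨x, hx₀⟩, Subfield.subset_closure (Or.inr rfl), rfl⟩
  obtain ⟨r, hr, hry⟩ := key hy
  exact ⟨⟨r, hr⟩, hry⟩

/-- **G2 in the packaging of `exists_descent`.** -/
theorem exists_good_pair [Algebra.IsAlgebraic k K] (A : ValuationSubring K) (x : F)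
    {ι : Type*} [Fintype ι] [DecidableEq ι] (b : Module.Basis ι K⟮x⟯ F) (T : Finset F)
    (Z₀ : Finset K) :
    ∃ K₀ : IntermediateField k K, FiniteDimensional k K₀ ∧ (∀ z ∈ Z₀, z ∈ K₀) ∧
      ∃ (F₀ : IntermediateField K₀ F) (hx₀ : x ∈ F₀) (hb : ∀ i, b i ∈ F₀),
        (∀ t ∈ T, t ∈ F₀) ∧
        (∀ f : F, f ∈ F₀ ↔ ∀ i, ((b.repr f i : K⟮x⟯) : F) ∈ ratSubF K₀ x) ∧
        letI := algComap (A.comap (algebraMap K₀ K)) F₀
        ∀ f : F₀, ∃ r : ι → ratSub ↥(A.comap (algebraMap K₀ K)) (⟨x, hx₀⟩ : F₀),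
          f = ∑ i, ((r i : F₀)) * (⟨b i, hb i⟩ : F₀) := by
  classical
  obtain ⟨Z, hZ⟩ := exists_finset_coordField x b T
  let K₀ : IntermediateField k K := IntermediateField.adjoin k ((Z ∪ Z₀ : Finset K) : Set K)
  have hfin : FiniteDimensional k K₀ :=
    IntermediateField.finiteDimensional_adjoin fun z _ =>
      (Algebra.IsAlgebraic.isAlgebraic z).isIntegral
  have hZK : ∀ z ∈ Z ∪ Z₀, z ∈ K₀ := fun z hz =>
    IntermediateField.subset_adjoin k _ (Finset.mem_coe.mpr hz)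
  obtain ⟨F₁, hF₁, hle, hbF, hTF⟩ := hZ (ratSubF K₀ x)
    (fun z hz => Subfield.subset_closure
      (Or.inl ⟨⟨z, hZK z (Finset.mem_union_left _ hz)⟩, rfl⟩))
    (Subfield.subset_closure (Or.inr rfl)) (ratSubF_le K₀ x)
  let F₀ : IntermediateField K₀ F := F₁.toIntermediateField fun a =>
    hle (Subfield.subset_closure (Or.inl ⟨a, rfl⟩))
  have hmem : ∀ f : F, f ∈ F₀ ↔ f ∈ F₁ := fun f => Iff.rfl
  have hx₀ : x ∈ F₀ := hle (Subfield.subset_closure (Or.inr rfl))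
  refine ⟨K₀, hfin, fun z hz => hZK z (Finset.mem_union_right _ hz), F₀, hx₀, hbF, hTF,
    fun f => (hmem f).trans (hF₁ f), ?_⟩
  let _ := algComap (A.comap (algebraMap K₀ K)) F₀
  intro f
  have hc : ∀ i, ∃ r : ratSub ↥(A.comap (algebraMap K₀ K)) (⟨x, hx₀⟩ : F₀),
      ((r : F₀) : F) = ((b.repr (f : F) i : K⟮x⟯) : F) := fun i =>
    exists_mem_ratSub_of_mem_ratSubF A K₀ F₀ x hx₀ ((hF₁ (f : F)).mp f.2 i)
  choose r hr using hc
  refine ⟨r, Subtype.ext ?_⟩
  have h1 : (f : F) = ∑ i, b.repr (f : F) i • b i := (b.sum_repr (f : F)).symm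
  rw [h1]
  simp only [IntermediateField.coe_sum, IntermediateField.coe_mul]
  refine Finset.sum_congr rfl fun i _ => ?_
  rw [hr i, Algebra.smul_def]
  rfl

end Fermat.Agent.S18.H78
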