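/-
S18 / wave 4 (helper78): core 2, leaf K2-N, node N-BASIS of helper8's sub-skeleton
(`H8/DescentSkel.lean`): `dsetup_finite_basis`, statement VERBATIM — the fields `finite` and
`basis` of the descended setup `DSetup (A ∩ K₀) (O ∩ F₀) x` from a good pair `(K₀, F₀)`.
-/
import Mathlib
import Fermat.Agent.S18.H74.Setup
import Fermat.Agent.S18.H19.Core2Defs
import Fermat.Agent.S18.H8.DescentDefs
import Fermat.Agent.S18.H80.OfSetup
import Fermat.Agent.S18.H82.TraceTransfer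
import Fermat.Agent.S18.H78.GoodPair

set_option autoImplicit false

open AlgebraicCurve IntermediateField Polynomial

noncomputable section

namespace Fermat.Agent.S18.H78

open Fermat.Agent.S18.H74 Fermat.Agent.S18.H19 Fermat.Agent.S18.H8

variable {k K : Type*} [Field k] [Field K] [Algebra k K]
  (A : ValuationSubring K) {F : Type*} [Field F] [Algebra K F] (O : ValuationSubring F)
  (K₀ : IntermediateField k K) (F₀ : IntermediateField K₀ F) (x : F) (hx₀ : x ∈ F₀)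

/-- `K₀⟮x⟯ ⊆ ratSubF K₀ x` (the two descriptions of `K₀(x) ⊆ F`). -/
theorem mem_ratSubF_of_mem_adjoin {r : F} (hr : r ∈ (K₀⟮x⟯ : IntermediateField K₀ F)) :
    r ∈ ratSubF K₀ x := by
  have h : (K₀⟮x⟯ : IntermediateField K₀ F) ≤
      (ratSubF K₀ x).toIntermediateField
        (fun a => Subfield.subset_closure (Or.inl ⟨a, rfl⟩)) := by
    rw [IntermediateField.adjoin_simple_le_iff]
    exact Subfield.subset_closure (Or.inr rfl)
  exact h hr

/-- `K₀⟮x⟯ ⊆ K⟮x⟯` inside `F`. -/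
theorem mem_adjoin_top_of_mem_adjoin {r : F} (hr : r ∈ (K₀⟮x⟯ : IntermediateField K₀ F)) :
    r ∈ K⟮x⟯ := by
  have h : (K₀⟮x⟯ : IntermediateField K₀ F) ≤ IntermediateField.restrictScalars K₀ K⟮x⟯ := by
    rw [IntermediateField.adjoin_simple_le_iff]
    exact mem_adjoin_simple_self K x
  exact h hr

/-- The image of `ratSub (A ∩ K₀) x ⊆ F₀` in `F` lies in `K(x)`. -/
theorem coe_mem_adjoin_of_mem_ratSub :
    letI := algComap (A.comap (algebraMap K₀ K)) F₀
    ∀ r : F₀, r ∈ ratSub ↥(A.comap (algebraMap K₀ K)) (⟨x, hx₀⟩ : F₀) → (r : F) ∈ K⟮x⟯ := by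
  let _ := algComap (A.comap (algebraMap K₀ K)) F₀
  have h : ratSub ↥(A.comap (algebraMap K₀ K)) (⟨x, hx₀⟩ : F₀) ≤
      (K⟮x⟯.toSubfield).comap (algebraMap F₀ F) := by
    unfold ratSub
    rw [Subfield.closure_le]
    rintro y (⟨a, rfl⟩ | hy)
    · exact K⟮x⟯.algebraMap_mem ((a : K₀) : K)
    · rw [Set.mem_singleton_iff] at hy
      rw [hy]
      exact mem_adjoin_simple_self K x
  exact fun r hr => h hr

/-- (N-BASIS) `DSetup.finite` and `DSetup.basis`  (G1 + G5). -/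
theorem dsetup_finite_basis (hA : A ≠ ⊤) (hS : Setup K A F O x)
    (θ : Fin (Module.finrank K⟮x⟯ F) → F)
    (horth : ∀ r : Fin (Module.finrank K⟮x⟯ F) → K⟮x⟯,
      (∑ i, (r i : F) * θ i) ∈ O ↔ ∀ i, (r i : F) ∈ O)
    (hgram : ((gramDet K F x θ : K⟮x⟯) : F)⁻¹ ∈ O)
    (hG : GoodPair x K₀ F₀ θ) :
    letI := algComap (A.comap (algebraMap K₀ K)) F₀
    Module.Finite (ratSub ↥(A.comap (algebraMap K₀ K)) (⟨x, hx₀⟩ : F₀)) F₀ ∧
    ∃ θ₀ : Fin (Module.finrank (ratSub ↥(A.comap (algebraMap K₀ K)) (⟨x, hx₀⟩ : F₀)) F₀) → F₀,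
      (∀ r : Fin (Module.finrank (ratSub ↥(A.comap (algebraMap K₀ K)) (⟨x, hx₀⟩ : F₀)) F₀) →
          ratSub ↥(A.comap (algebraMap K₀ K)) (⟨x, hx₀⟩ : F₀),
        (∑ i, (r i : F₀) * θ₀ i) ∈ O.comap (algebraMap F₀ F) ↔
          ∀ i, (r i : F₀) ∈ O.comap (algebraMap F₀ F)) ∧
      (((Matrix.of fun i j =>
          Algebra.trace (ratSub ↥(A.comap (algebraMap K₀ K)) (⟨x, hx₀⟩ : F₀)) F₀
            (θ₀ i * θ₀ j)).det : ratSub ↥(A.comap (algebraMap K₀ K)) (⟨x, hx₀⟩ : F₀)) : F₀)⁻¹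
        ∈ O.comap (algebraMap F₀ F) := by
  classical
  let _ := algComap (A.comap (algebraMap K₀ K)) F₀
  have D := Fermat.Agent.S18.H80.resData_of_setup hA hS θ horth hgram
  -- the two semilinear maps
  let φ : ↥F₀ →+* F := algebraMap F₀ F
  let ψ : ↥(ratSub ↥(A.comap (algebraMap K₀ K)) (⟨x, hx₀⟩ : F₀)) →+* K⟮x⟯ :=
    (φ.comp (ratSub ↥(A.comap (algebraMap K₀ K)) (⟨x, hx₀⟩ : F₀)).subtype).codRestrict K⟮x⟯
      fun r => coe_mem_adjoin_of_mem_ratSub A K₀ F₀ x hx₀ r r.2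
  have hφ : ∀ r : ↥(ratSub ↥(A.comap (algebraMap K₀ K)) (⟨x, hx₀⟩ : F₀)),
      φ (algebraMap _ ↥F₀ r) = algebraMap K⟮x⟯ F (ψ r) := fun r => rfl
  have hψc : ∀ r : ↥(ratSub ↥(A.comap (algebraMap K₀ K)) (⟨x, hx₀⟩ : F₀)),
      ((ψ r : K⟮x⟯) : F) = ((r : F₀) : F) := fun r => rfl
  have hψ : Function.Injective ψ := ψ.injective
  have hφi : Function.Injective φ := φ.injective
  -- the basis upstairs and the family downstairs
  let θ₁ : Fin (Module.finrank K⟮x⟯ F) → ↥F₀ := fun i => ⟨θ i, hG.theta_mem i⟩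
  have hb : ∀ i, D.basisF i = φ (θ₁ i) := fun i => D.basisF_apply i
  have hcoord : ∀ (a : ↥F₀) (i : Fin (Module.finrank K⟮x⟯ F)),
      ∃ r : ↥(ratSub ↥(A.comap (algebraMap K₀ K)) (⟨x, hx₀⟩ : F₀)),
        ψ r = D.basisF.repr (φ a) i := by
    intro a i
    obtain ⟨c, hc⟩ := hG.coord (a : F) a.2
    let r' : Fin (Module.finrank K⟮x⟯ F) → K⟮x⟯ := fun j =>
      ⟨(c j : F), mem_adjoin_top_of_mem_adjoin K₀ x (c j).2⟩
    have h1 : D.basisF.repr (φ a) i = r' i := by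
      have h2 : φ a = ∑ j, ((r' j : K⟮x⟯) : F) * θ j := hc
      rw [h2, D.repr_sum]
    obtain ⟨r, hr⟩ := exists_mem_ratSub_of_mem_ratSubF A K₀ F₀ x hx₀
      (mem_ratSubF_of_mem_adjoin K₀ x (c i).2)
    refine ⟨r, ?_⟩
    rw [h1]
    exact Subtype.ext hr
  obtain ⟨b₁, hb₁⟩ := Fermat.Agent.S18.H82.exists_basis_of_repr_mem_range ψ φ hφ hψ hφi θ₁
    D.basisF hb hcoord
  have hfin : Module.Finite (ratSub ↥(A.comap (algebraMap K₀ K)) (⟨x, hx₀⟩ : F₀)) F₀ :=
    Module.Finite.of_basis b₁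
  have hrank : Module.finrank (ratSub ↥(A.comap (algebraMap K₀ K)) (⟨x, hx₀⟩ : F₀)) F₀ =
      Module.finrank K⟮x⟯ F := by
    rw [Module.finrank_eq_card_basis b₁, Fintype.card_fin]
  refine ⟨hfin, fun i => θ₁ (finCongr hrank i), ?_, ?_⟩
  · intro r
    -- transport to `F` and reindex
    have h1 : φ (∑ i, (r i : F₀) * θ₁ (finCongr hrank i)) =
        ∑ j, ((ψ (r ((finCongr hrank).symm j)) : K⟮x⟯) : F) * θ j := by
      rw [map_sum, ← Equiv.sum_comp (finCongr hrank)]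
      refine Finset.sum_congr rfl fun i _ => ?_
      rw [map_mul, Equiv.symm_apply_apply]
      rfl
    rw [ValuationSubring.mem_comap]
    change φ _ ∈ O ↔ _
    rw [h1, horth]
    constructor
    · intro h i
      have := h (finCongr hrank i)
      rw [Equiv.symm_apply_apply] at this
      exact this
    · intro h j
      exact h ((finCongr hrank).symm j)
  · rw [ValuationSubring.mem_comap, map_inv₀]
    have h2 : (algebraMap ↥F₀ F)
        ((((Matrix.of fun i j =>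
          Algebra.trace (ratSub ↥(A.comap (algebraMap K₀ K)) (⟨x, hx₀⟩ : F₀)) F₀
            (θ₁ (finCongr hrank i) * θ₁ (finCongr hrank j))).det :
              ratSub ↥(A.comap (algebraMap K₀ K)) (⟨x, hx₀⟩ : F₀)) : F₀)) =
        ((gramDet K F x θ : K⟮x⟯) : F) := by
      have h3 := Fermat.Agent.S18.H82.det_traceMatrix_map_of_basis ψ φ hφ b₁ D.basisF
        (fun i => by rw [hb₁ i, hb i]) (fun i => θ₁ (finCongr hrank i))
      have h4 : ((Matrix.of fun i j : Fin (Module.finrank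
            (ratSub ↥(A.comap (algebraMap K₀ K)) (⟨x, hx₀⟩ : F₀)) F₀) =>
          Algebra.trace K⟮x⟯ F (φ (θ₁ (finCongr hrank i)) * φ (θ₁ (finCongr hrank j)))).det) =
          gramDet K F x θ := by
        unfold gramDet
        have h5 : (Matrix.of fun i j : Fin (Module.finrank
            (ratSub ↥(A.comap (algebraMap K₀ K)) (⟨x, hx₀⟩ : F₀)) F₀) =>
          Algebra.trace K⟮x⟯ F (φ (θ₁ (finCongr hrank i)) * φ (θ₁ (finCongr hrank j)))) =
            (Matrix.of fun i j : Fin (Module.finrank K⟮x⟯ F) =>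
              Algebra.trace K⟮x⟯ F (θ i * θ j)).submatrix (finCongr hrank) (finCongr hrank) := by
          ext i j
          rfl
        rw [h5, Matrix.det_submatrix_equiv_self]
      rw [← h4, h3]
      rfl
    rw [h2]
    exact hgram

end Fermat.Agent.S18.H78
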