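/-
S18 / wave 4 (helper78): core 2, leaf K2-N, node N-GOOD of helper8's sub-skeleton
(`H8/DescentSkel.lean`): `exists_goodPair`, statement VERBATIM, from the landed generic core
`H78.exists_finset_coordField`.
-/
import Mathlib
import Fermat.Agent.S18.H8.DescentDefs
import Fermat.Agent.S18.H78.CoordField

set_option autoImplicit false

open IntermediateField Polynomial

namespace Fermat.Agent.S18.H78

open Fermat.Agent.S18.H8

/-- `K₀(x) ⊆ K(x)` inside `F`. -/
theorem mem_adjoin_of_mem_adjoin_sub {k K : Type*} [Field k] [Field K] [Algebra k K]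
    {F : Type*} [Field F] [Algebra K F] (K₀ : IntermediateField k K) (x : F) {r : F}
    (hr : r ∈ (K₀⟮x⟯ : IntermediateField K₀ F)) : r ∈ K⟮x⟯ := by
  have h : (K₀⟮x⟯ : IntermediateField K₀ F) ≤ IntermediateField.restrictScalars K₀ K⟮x⟯ := by
    rw [IntermediateField.adjoin_simple_le_iff]
    exact mem_adjoin_simple_self K x
  exact h hr

/-- (N-GOOD) For a `K(x)`-spanning family `θ` of `F`, finite `T ⊆ F` and `Z ⊆ K`: there is a
subfield `K₀ ⊆ K`, finitely generated over `k` and containing `Z`, and a subfield `F₀ ⊆ F`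
containing `T` such that `(K₀, F₀)` is a good pair. -/
theorem exists_goodPair {k K : Type*} [Field k] [Field K] [Algebra k K]
    {F : Type*} [Field F] [Algebra K F] (x : F) {μ : ℕ} (θ : Fin μ → F)
    (hθ : ∀ f : F, ∃ r : Fin μ → K⟮x⟯, f = ∑ i, (r i : F) * θ i)
    (T : Finset F) (Z : Finset K) :
    ∃ Z' : Finset K, Z ⊆ Z' ∧ ∃ F₀ : IntermediateField (IntermediateField.adjoin k (Z' : Set K)) F,
      GoodPair x (IntermediateField.adjoin k (Z' : Set K)) F₀ θ ∧ ∀ t ∈ T, t ∈ F₀ := by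
  classical
  -- a basis extracted from the spanning family
  have hspan : ⊤ ≤ Submodule.span K⟮x⟯ (Set.range θ) := by
    rintro f -
    obtain ⟨r, rfl⟩ := hθ f
    refine Submodule.sum_mem _ fun i _ => ?_
    have h1 : (r i : F) * θ i = r i • θ i := by
      rw [Algebra.smul_def]; rfl
    rw [h1]
    exact Submodule.smul_mem _ _ (Submodule.subset_span ⟨i, rfl⟩)
  let b := Module.Basis.ofSpan hspan
  have hbsub : ∀ i, b i ∈ Set.range θ := fun i => Module.Basis.ofSpan_subset hspan ⟨i, rfl⟩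
  choose σ hσ using hbsub
  have hfinI : Finite ↑((linearIndepOn_empty K⟮x⟯ id).extend (Set.empty_subset (Set.range θ))) :=
    Set.Finite.subset (Set.finite_range θ)
      ((linearIndepOn_empty K⟮x⟯ id).extend_subset (Set.empty_subset (Set.range θ)))
  have : Fintype ↑((linearIndepOn_empty K⟮x⟯ id).extend (Set.empty_subset (Set.range θ))) :=
    Fintype.ofFinite _
  obtain ⟨Z₁, hZ₁⟩ := exists_finset_coordField x b (T ∪ Finset.univ.image θ)
  refine ⟨Z ∪ Z₁, Finset.subset_union_left, ?_⟩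
  set K₀ : IntermediateField k K := IntermediateField.adjoin k ((Z ∪ Z₁ : Finset K) : Set K)
    with hK₀
  have hZK : ∀ z ∈ Z₁, z ∈ K₀ := fun z hz =>
    IntermediateField.subset_adjoin k _ (Finset.mem_coe.mpr (Finset.mem_union_right _ hz))
  let E₀ : Subfield F := (K₀⟮x⟯ : IntermediateField K₀ F).toSubfield
  have hE₀ : ∀ r : F, r ∈ E₀ ↔ r ∈ (K₀⟮x⟯ : IntermediateField K₀ F) := fun r => Iff.rfl
  obtain ⟨F₁, hF₁, hle, hbF, hTF⟩ := hZ₁ E₀
    (fun z hz => (K₀⟮x⟯ : IntermediateField K₀ F).algebraMap_mem (⟨z, hZK z hz⟩ : K₀))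
    (mem_adjoin_simple_self (↥K₀) x)
    (fun r hr => mem_adjoin_of_mem_adjoin_sub K₀ x hr)
  let F₀ : IntermediateField K₀ F := F₁.toIntermediateField fun a =>
    hle ((K₀⟮x⟯ : IntermediateField K₀ F).algebraMap_mem a)
  have hmem : ∀ f : F, f ∈ F₀ ↔ f ∈ F₁ := fun f => Iff.rfl
  refine ⟨F₀, ⟨?_, ?_, ?_⟩, fun t ht => hTF t (Finset.mem_union_left _ ht)⟩
  · exact hle (mem_adjoin_simple_self (↥K₀) x)
  · exact fun i => hTF (θ i) (Finset.mem_union_right _ (Finset.mem_image_of_mem θ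
      (Finset.mem_univ i)))
  · intro f hf
    have hc := (hF₁ f).mp hf
    refine ⟨fun j => ∑ i ∈ Finset.univ.filter (fun i => σ i = j),
      (⟨((b.repr f i : K⟮x⟯) : F), hc i⟩ : (K₀⟮x⟯ : IntermediateField K₀ F)), ?_⟩
    have h1 : f = ∑ i, ((b.repr f i : K⟮x⟯) : F) * θ (σ i) := by
      conv_lhs => rw [← b.sum_repr f]
      refine Finset.sum_congr rfl fun i _ => ?_
      rw [hσ i, Algebra.smul_def]; rfl
    conv_lhs => rw [h1]
    rw [← Finset.sum_fiberwise Finset.univ σ]
    refine Finset.sum_congr rfl fun j _ => ?_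
    beta_reduce
    rw [AddSubmonoidClass.coe_finsetSum, Finset.sum_mul]
    refine Finset.sum_congr rfl fun i hi => ?_
    rw [(Finset.mem_filter.mp hi).2]

end Fermat.Agent.S18.H78
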